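import Mathlib

/-!
# Row LT, tower T1, leaf T1.18 (helper558): strict Borel fundamental domains, abstract part

OFF-MAIN.  Mathlib only.

`exists_strict_fundDom558`: a countable discrete subgroup `Γ` of a second countable topological
group `G` (Borel σ-algebra), an invariant Borel set `X` and a Borel set `S` meeting every
`Γ`-orbit of `X`: there is a Borel set `F ⊆ S ∩ X` meeting every `Γ`-orbit of `X` in exactly one
point (`∀ g ∈ X, ∃! γ : Γ, γ * g ∈ F`).  Bourbaki, Intégration VII §2 no. 10.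
-/

set_option autoImplicit false

open Set Topology

namespace Fermat.Agent.LT.T1.H558

section Abs

variable {G : Type*} [Group G] [TopologicalSpace G] [IsTopologicalGroup G]

/-- A discrete subgroup has an open neighbourhood `V` of `1` with `V V⁻¹ ∩ Γ = {1}`. -/
theorem exists_nhds_sep558 (Γ : Subgroup G) [DiscreteTopology Γ] :
    ∃ V : Set G, IsOpen V ∧ (1 : G) ∈ V ∧
      ∀ a ∈ V, ∀ b ∈ V, a * b⁻¹ ∈ Γ → a * b⁻¹ = 1 := by
  classical
  -- an open `U` with `U ∩ Γ = {1}`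
  have h1 : IsOpen ({1} : Set Γ) := isOpen_discrete _
  obtain ⟨U, hUo, hU⟩ := isOpen_induced_iff.mp h1
  have h1U : (1 : G) ∈ U := by
    have : (1 : Γ) ∈ (Subtype.val ⁻¹' U : Set Γ) := by rw [hU]; exact rfl
    simpa using this
  have hUΓ : ∀ x ∈ U, x ∈ Γ → x = 1 := by
    intro x hx hxΓ
    have : (⟨x, hxΓ⟩ : Γ) ∈ (Subtype.val ⁻¹' U : Set Γ) := hx
    rw [hU] at this
    exact congrArg Subtype.val (Set.mem_singleton_iff.mp this)
  -- continuity of `(a, b) ↦ a * b⁻¹` at `(1, 1)`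
  have hc : Continuous fun p : G × G => p.1 * p.2⁻¹ := by fun_prop
  have hpre : (fun p : G × G => p.1 * p.2⁻¹) ⁻¹' U ∈ 𝓝 ((1 : G), (1 : G)) := by
    apply hc.continuousAt.preimage_mem_nhds
    simpa using hUo.mem_nhds h1U
  rw [nhds_prod_eq, Filter.mem_prod_iff] at hpre
  obtain ⟨A, hA, B, hB, hAB⟩ := hpre
  obtain ⟨V, hVsub, hVo, hV1⟩ := mem_nhds_iff.mp (Filter.inter_mem hA hB)
  refine ⟨V, hVo, hV1, ?_⟩
  intro a ha b hb hab
  apply hUΓ _ _ hab
  have : (a, b) ∈ A ×ˢ B := ⟨(hVsub ha).1, (hVsub hb).2⟩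
  exact hAB this

variable [SecondCountableTopology G]

/-- A sequence of right translates of `V` covering `G`. -/
theorem exists_seq_cover558 (V : Set G) (hVo : IsOpen V) (hV1 : (1 : G) ∈ V) :
    ∃ x : ℕ → G, ∀ g : G, ∃ n : ℕ, g * (x n)⁻¹ ∈ V := by
  classical
  have hf : ∀ y : G, (fun g : G => g * y⁻¹) ⁻¹' V ∈ 𝓝 y := by
    intro y
    have hc : Continuous fun g : G => g * y⁻¹ := by fun_prop
    apply hc.continuousAt.preimage_mem_nhds
    simpa using hVo.mem_nhds hV1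
  obtain ⟨s, hs, hcov⟩ := TopologicalSpace.countable_cover_nhds hf
  have hne : s.Nonempty := by
    by_contra hcon
    rw [Set.not_nonempty_iff_eq_empty] at hcon
    have : (1 : G) ∈ (⋃ x ∈ s, (fun g : G => g * x⁻¹) ⁻¹' V) := by rw [hcov]; trivial
    rw [hcon] at this
    simp at this
  obtain ⟨x, hx⟩ := hs.exists_eq_range hne
  refine ⟨x, fun g => ?_⟩
  have : g ∈ (⋃ y ∈ s, (fun g : G => g * y⁻¹) ⁻¹' V) := by rw [hcov]; trivial
  simp only [Set.mem_iUnion, Set.mem_preimage, exists_prop] at this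
  obtain ⟨y, hy, hgy⟩ := this
  rw [hx] at hy
  obtain ⟨n, rfl⟩ := hy
  exact ⟨n, hgy⟩

variable [MeasurableSpace G] [BorelSpace G]

/-- **Strict Borel fundamental domain** for a countable discrete subgroup `Γ` in an invariant
Borel set `X`, inside a Borel set `S` that meets every orbit of `X`. -/
theorem exists_strict_fundDom558 (Γ : Subgroup G) [Countable Γ] [DiscreteTopology Γ]
    (X S : Set G) (hX : MeasurableSet X) (hS : MeasurableSet S)
    (hXinv : ∀ γ : Γ, ∀ g ∈ X, (γ : G) * g ∈ X)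
    (hcov : ∀ g ∈ X, ∃ γ : Γ, (γ : G) * g ∈ S) :
    ∃ F : Set G, MeasurableSet F ∧ F ⊆ S ∩ X ∧ ∀ g ∈ X, ∃! γ : Γ, (γ : G) * g ∈ F := by
  classical
  obtain ⟨V, hVo, hV1, hVsep⟩ := exists_nhds_sep558 Γ
  obtain ⟨x, hx⟩ := exists_seq_cover558 V hVo hV1
  -- the pieces
  set A : ℕ → Set G := fun n => (S ∩ X) ∩ (fun g : G => g * (x n)⁻¹) ⁻¹' V with hA
  set B : ℕ → Set G := fun n => ⋃ γ : Γ, (fun g : G => (γ : G) * g) ⁻¹' A n with hB
  have hAm : ∀ n, MeasurableSet (A n) := by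
    intro n
    refine (hS.inter hX).inter ?_
    have hc : Continuous fun g : G => g * (x n)⁻¹ := by fun_prop
    exact (hVo.preimage hc).measurableSet
  have hBm : ∀ n, MeasurableSet (B n) := by
    intro n
    refine MeasurableSet.iUnion fun γ => ?_
    have hc : Continuous fun g : G => (γ : G) * g := by fun_prop
    exact hc.measurable (hAm n)
  have hBmem : ∀ n g, g ∈ B n ↔ ∃ γ : Γ, (γ : G) * g ∈ A n := by
    intro n g
    simp [hB]
  have hBinv : ∀ n (γ : Γ) g, (γ : G) * g ∈ B n ↔ g ∈ B n := by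
    intro n γ g
    rw [hBmem, hBmem]
    constructor
    · rintro ⟨δ, hδ⟩
      refine ⟨δ * γ, ?_⟩
      simpa [mul_assoc] using hδ
    · rintro ⟨δ, hδ⟩
      refine ⟨δ * γ⁻¹, ?_⟩
      simpa [mul_assoc] using hδ
  refine ⟨⋃ n, (A n \ ⋃ m ∈ Finset.range n, B m), ?_, ?_, ?_⟩
  · refine MeasurableSet.iUnion fun n => (hAm n).diff ?_
    exact Finset.measurableSet_biUnion _ fun m _ => hBm m
  · intro g hg
    simp only [Set.mem_iUnion, Set.mem_sdiff] at hg
    obtain ⟨n, hgA, _⟩ := hg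
    exact hgA.1
  · intro g hg
    -- the orbit of `g` meets some `A n`
    have hex : ∃ n, g ∈ B n := by
      obtain ⟨γ, hγ⟩ := hcov g hg
      obtain ⟨n, hn⟩ := hx ((γ : G) * g)
      exact ⟨n, (hBmem n g).mpr ⟨γ, ⟨hγ, hXinv γ g hg⟩, hn⟩⟩
    set n := Nat.find hex with hn
    have hgn : g ∈ B n := Nat.find_spec hex
    have hmin : ∀ m, m < n → g ∉ B m := fun m hm => Nat.find_min hex hm
    obtain ⟨γ, hγ⟩ := (hBmem n g).mp hgn
    have hF : ∀ (δ : Γ), ((δ : G) * g ∈ ⋃ k, (A k \ ⋃ m ∈ Finset.range k, B m)) ↔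
        (δ : G) * g ∈ A n := by
      intro δ
      constructor
      · intro h
        simp only [Set.mem_iUnion, Set.mem_sdiff, Finset.mem_range, exists_prop, not_exists,
          not_and] at h
        obtain ⟨k, hkA, hk⟩ := h
        have hgk : g ∈ B k := (hBmem k g).mpr ⟨δ, hkA⟩
        have hnk : n ≤ k := Nat.find_min' hex hgk
        rcases Nat.lt_or_ge n k with hlt | hge
        · exact absurd ((hBinv n δ g).mpr hgn) (hk n hlt)
        · have : k = n := le_antisymm hge hnk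
          rw [this] at hkA
          exact hkA
      · intro h
        simp only [Set.mem_iUnion, Set.mem_sdiff, Finset.mem_range, exists_prop, not_exists,
          not_and]
        refine ⟨n, h, fun m hm hmB => ?_⟩
        exact hmin m hm ((hBinv m δ g).mp hmB)
    refine ⟨γ, (hF γ).mpr hγ, ?_⟩
    intro δ hδ
    have hδA : (δ : G) * g ∈ A n := (hF δ).mp hδ
    -- both in `V x_n`
    have h1 : ((δ : G) * g) * (x n)⁻¹ ∈ V := hδA.2
    have h2 : ((γ : G) * g) * (x n)⁻¹ ∈ V := hγ.2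
    have hmem : (((δ : G) * g) * (x n)⁻¹) * (((γ : G) * g) * (x n)⁻¹)⁻¹ ∈ Γ := by
      have : (((δ : G) * g) * (x n)⁻¹) * (((γ : G) * g) * (x n)⁻¹)⁻¹ = ((δ * γ⁻¹ : Γ) : G) := by
        push_cast
        group
      rw [this]
      exact (δ * γ⁻¹).2
    have h3 := hVsep _ h1 _ h2 hmem
    have h4 : (δ : G) * (γ : G)⁻¹ = 1 := by
      have : (((δ : G) * g) * (x n)⁻¹) * (((γ : G) * g) * (x n)⁻¹)⁻¹ = (δ : G) * (γ : G)⁻¹ := by
        group
      rw [this] at h3
      exact h3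
    exact Subtype.ext (mul_inv_eq_one.mp h4)

end Abs

end Fermat.Agent.LT.T1.H558
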